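import Mathlib
import Fermat.Agent.LT.T7.B981.PairASpec

/-!
# Row LT, tower T7, node T7.L2.1.H2a.A.2 `B981.StepSC981` (registry row 2815, owner helper503):
# THE CUT -- Spec

OFF-MAIN.  Definitions and frozen Props only (the proved top `stepSC_of503` is in
`StepSTop.lean`).  No hole, nothing assumed.  ADDITIVE (new names only, suffix `503`, namespace
`Fermat.Agent.LT.T7.B981.SS503`).  Vocabulary: `T7/B981/PairASpec.lean` (helper981@665489bd4,
sha256 54ea7f02) and its imports, byte-identical copies.

    stepSC_of503 : UnifC503 K → UnifC503 K' → TrTestC503 K → TrTestC503 K' → TrEKC503 K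
        → TrEKC503 K' → TrSuppC503 K → TrSuppC503 K' → TrOpC503 K → TrOpC503 K'
        → PlacesC503 K K' → SphShiftC503 → UnitSphC503 → PureShiftC503 K → PureShiftC503 K'
        → B981.StepSC981 K K' H893.LocA893

## The step

`x = S_w` (`ε = 1`) or `x = S_w⁻¹` (`ε = -1`), `w ∉ S'`; `v` the place of `K` under `w`, `f` the
residue degree; `z'` a scalar uniformiser at `w`, `z` a scalar uniformiser at `v`:

    φ' = φ(· z'^{-ε}),      f' = f(· z^{-ε f}).

All leaves are statements over ONE number field (or local), except `PlacesC503`.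
-/

set_option autoImplicit false

open AutomorphicForm IsDedekindDomain NumberField MeasureTheory
open scoped ComplexConjugate

noncomputable section

namespace Fermat.Agent.LT.T7.B981.SS503

open Fermat.Agent.LT.H556 Fermat.Agent.LT.H556.A0 Fermat.Agent.LT.T7
open Fermat.Agent.LT.T7.H305 Fermat.Agent.LT.T7.H893

attribute [local instance] Fermat.Agent.LT.T5.instMeasurableSpaceG

/-! ## 1. Vocabulary -/

section Vocab

variable {K : Type} [Field K] [NumberField K]

/-- The right translate `g ↦ φ (g z)`. -/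
def rtr503 (z : G K) (φ : G K → ℂ) : G K → ℂ := fun g => φ (g * z)

open Classical in
/-- The components `f₀`, replaced by the unit `1_{GL₂(𝒪_v)}` outside `T`. -/
def extU503 (T : Finset (HeightOneSpectrum (𝓞 K)))
    (f₀ : ∀ v : HeightOneSpectrum (𝓞 K), GL (Fin 2) (v.adicCompletion K) → ℂ) :
    ∀ v : HeightOneSpectrum (𝓞 K), GL (Fin 2) (v.adicCompletion K) → ℂ :=
  fun v => if v ∈ T then f₀ v else unitFn893 0

open Classical in
/-- The components `f₀` with the component at `v` translated on the right by `c`. -/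
def trC503 (v : HeightOneSpectrum (𝓞 K)) (c : GL (Fin 2) (v.adicCompletion K))
    (f₀ : ∀ v : HeightOneSpectrum (𝓞 K), GL (Fin 2) (v.adicCompletion K) → ℂ) :
    ∀ v : HeightOneSpectrum (𝓞 K), GL (Fin 2) (v.adicCompletion K) → ℂ :=
  Function.update f₀ v (fun x => f₀ v (x * c))

/-- The values on the Cartan invariants shifted by `(t, t)`: `(shA503 t A) (a + t, b + t) =
A (a, b)`. -/
def shA503 (t : ℤ) (A : (ℤ × ℤ) →₀ ℂ) : (ℤ × ℤ) →₀ ℂ :=
  A.mapDomain fun lam => (lam.1 + t, lam.2 + t)

end Vocab

/-! ## 2. The leaves over one field -/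

section OneField

variable (K : Type) [Field K] [NumberField K]

/-- **LEAF SS.0 = UNIF (closed asset `H129.exists_scalarUniformizer129`).**  Scalar uniformisers
exist at every finite place. -/
def UnifC503 : Prop :=
  ∀ v : HeightOneSpectrum (𝓞 K), ∃ z : G K, IsScalarUniformizerAt v z

/-- **LEAF SS.1 = TR-TEST ([S-M]).**  The right translate of a test function by a power of a
scalar uniformiser is a test function of the same level.
Proof.  `z` is a scalar matrix of `GL₂(𝔸_K)` (componentwise: `T5.H942.isScalarG_of_centralRay942`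
is the same argument), hence central; continuity and compact support: right multiplication is a
homeomorphism; smoothness at infinity and bi-invariance: `φ (g h z^t) = φ ((g z^t) h)`. -/
def TrTestC503 : Prop :=
  ∀ (𝔫 : Ideal (𝓞 K)) (v : HeightOneSpectrum (𝓞 K)) (z : G K), IsScalarUniformizerAt v z →
    ∀ (t : ℤ) (φ : G K → ℂ), T5.IsTestFn 𝔫 T5.trivType φ →
      T5.IsTestFn 𝔫 T5.trivType (rtr503 (z ^ t) φ)

/-- **LEAF SS.2 = TR-EK ([M]).**  The right translate of an Eisenstein-killing function by a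
power of a scalar uniformiser is Eisenstein-killing, and so is its adjoint.
Proof.  `R(φ(· z^t)) Ψ = R(φ) (Ψ(· z^{-t}))` (right invariance of `μ`: `IsFrame.right_inv`;
change of variables for the Bochner integral, no integrability needed), and `Ψ(· z^{-t})` is
Borel-invariant (`z` is central).  The adjoint of `φ(· z^t)` is `φ*(z^{-t} ·) = φ*(· z^{-t})`. -/
def TrEKC503 : Prop :=
  ∀ (μ : Measure (G K)) (F : Set (G K)), T5.IsFrame μ F →
    ∀ (v : HeightOneSpectrum (𝓞 K)) (z : G K), IsScalarUniformizerAt v z →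
    ∀ (t : ℤ) (φ : G K → ℂ),
      (T5.IsEK μ φ → T5.IsEK μ (rtr503 (z ^ t) φ)) ∧
      (T5.IsEK μ (T5.adjointFn φ) → T5.IsEK μ (T5.adjointFn (rtr503 (z ^ t) φ)))

/-- **LEAF SS.3 = TR-SUPP ([S-M]).**  Iwahori supports: if `v` is not in the orbit, the right
translate by a power of a scalar uniformiser at `v` is Iwahori-supported in the translate of the
compact set.
Proof.  `φ (y z^t) ≠ 0`: `y z^t` is Iwahori along the orbit and agrees outside the orbit with
`h ∈ C`; `z` is trivial at the places of the orbit and at infinity, so `y` is Iwahori along the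
orbit and agrees outside the orbit with `h z^{-t} ∈ C z^{-t}` (compact). -/
def TrSuppC503 : Prop :=
  ∀ (l : ℕ) (o : ℕ → HeightOneSpectrum (𝓞 K)) (v : HeightOneSpectrum (𝓞 K)) (z : G K),
    IsScalarUniformizerAt v z → (∀ j : ℕ, j < l → o j ≠ v) →
    ∀ (t : ℤ) (φ : G K → ℂ),
      (∃ C : Set (G K), IsCompact C ∧ T5.H32.IsIwSupported32 l o C φ) →
      ∃ C : Set (G K), IsCompact C ∧ T5.H32.IsIwSupported32 l o C (rtr503 (z ^ t) φ)

/-- **LEAF SS.4 = TR-OP ([M]).**  The operator of a right translate on a function with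
`χ (g z) = b χ (g)`: `R(φ(· z^{-k})) χ = b^k R(φ) χ`, `R(φ(· z^k)) χ = (b^k)⁻¹ R(φ) χ`.
Proof.  Right invariance of `μ` (`IsFrame.right_inv`; change of variables for the Bochner
integral, no integrability needed): `∫ φ (g z^{∓k}) χ (y g) = ∫ φ (g) χ (y g z^{± k})`;
`χ (h z^k) = b^k χ (h)`; if `b = 0` and `k ≠ 0` then `χ = 0` and both sides vanish. -/
def TrOpC503 : Prop :=
  ∀ (μ : Measure (G K)) (F : Set (G K)), T5.IsFrame μ F →
    ∀ (χ : G K → ℂ) (v : HeightOneSpectrum (𝓞 K)) (a b : ℂ), IsHeckeEigenAt χ v a b →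
    ∀ (z : G K), IsScalarUniformizerAt v z → ∀ (k : ℕ) (φ : G K → ℂ) (y : G K),
      T5.Rconv μ (rtr503 (z ^ (-(k : ℤ))) φ) χ y = b ^ k * T5.Rconv μ φ χ y ∧
      T5.Rconv μ (rtr503 (z ^ (k : ℤ)) φ) χ y = (b ^ k)⁻¹ * T5.Rconv μ φ χ y

/-- **LEAF SS.8 = PURE-SHIFT ([M-L]).**  The right translate of a pure tensor by a power of a
scalar uniformiser at `v ∈ P` is the pure tensor for the set `T ∪ P` with the components
extended by the unit outside `T` and the component at `v` translated.
Proof.  (1) `pure305 T f₀ F = pure305 T (extU503 T f₀) F` (the components outside `T` do not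
occur).  (2) `pure305 (T ∪ P) g₀ F = pure305 T g₀ F` if `g₀ v' = 1_{GL₂(𝒪)}` for
`v' ∈ P ∖ T` (`unitFn893 0 (finGL305 v' h) = 1` iff `h` and `h⁻¹` are integral at `v'`; this is
`H305.PureExtC305`, closed by helper82).  (3) `z` is trivial at infinity and outside `v`, and
`v ∈ T ∪ P`: `OutT305 (T ∪ P) (h z^t) ↔ OutT305 (T ∪ P) h`, the components at `v' ≠ v` and at
infinity are unchanged, the component at `v` is multiplied by `finGL305 v (z ^ t)`. -/
def PureShiftC503 : Prop :=
  open Classical in
  ∀ (T P : Finset (HeightOneSpectrum (𝓞 K)))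
    (f₀ : ∀ v : HeightOneSpectrum (𝓞 K), GL (Fin 2) (v.adicCompletion K) → ℂ)
    (F : InfinitePlace K → GL (Fin 2) ℂ → ℂ) (v : HeightOneSpectrum (𝓞 K)), v ∈ P →
    ∀ (z : G K), IsScalarUniformizerAt v z → ∀ (t : ℤ) (h : G K),
      pure305 (T ∪ P) (trC503 v (finGL305 v (z ^ t)) (extU503 T f₀)) F h
        = pure305 T f₀ F (h * z ^ t)

end OneField

/-! ## 3. The local leaves -/

section Local

/-- **LEAF SS.6 = SPH-SHIFT ([M]; local, valuations).**  The right translate of a spherical
function by the `(-t)`-th power of a scalar uniformiser is the spherical function with the values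
shifted by `(t, t)`.
Proof.  `T6.cartan (x c^{-t}) = T6.cartan x - (t, t)`: the entries are multiplied by `c₀^{-t}`
(`T6.entryMax` is multiplied by `exp t`, `WithZero.log` of it increases by `t`), the determinant
by `c₀^{-2t}`; `Finsupp.mapDomain_apply` for the injective shift; dominance is preserved. -/
def SphShiftC503 : Prop :=
  ∀ (k : Type) [Field k] [Valued k T6.Γ₀] (c : GL (Fin 2) k) (c₀ : k),
    Valued.v c₀ = WithZero.exp (-1 : ℤ) →
    (c : Matrix (Fin 2) (Fin 2) k) = Matrix.diagonal (fun _ => c₀) →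
    ∀ (t : ℤ) (φ : GL (Fin 2) k → ℂ) (A : (ℤ × ℤ) →₀ ℂ), IsSphFn893 φ A →
      IsSphFn893 (fun x => φ (x * c ^ (-t))) (shA503 t A)

/-- **LEAF SS.7 = UNIT-SPH ([M]; local, valuations).**  The unit `1_{GL₂(𝒪)}` is the spherical
function with the value `1` at the Cartan invariant `(0, 0)`.
Proof.  `T6.InU 0 x` iff `x` and `x⁻¹` have integral entries iff the largest valuation of an
entry is `1` and the determinant is a unit iff `T6.cartan x = (0, 0)`. -/
def UnitSphC503 : Prop :=
  ∀ (k : Type) [Field k] [Valued k T6.Γ₀],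
    IsSphFn893 (unitFn893 (k := k) 0) (Finsupp.single ((0 : ℤ), (0 : ℤ)) (1 : ℂ))

end Local

/-! ## 4. The leaf on the places -/

section TwoFields

variable (K K' : Type) [Field K] [NumberField K] [Field K'] [NumberField K'] [Algebra K K']

/-- **LEAF SS.5 = PLACES ([L]; algebraic number theory, Mathlib only).**  Every finite place `w`
of `K'` lies over exactly one place `v` of `K`, with a residue degree `f`
(`N w = (N v)^f`); the set of the places over `v` is finite; if `w` is unramified over `v`: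
`f = ℓ` if `w` is the only place over `v`, and if there are `ℓ` distinct places over `v` then
`f = 1` and `w` is one of them.
Proof.  `v = w ∩ 𝓞_K` (`Ideal.comap`, non-zero: integral extension);
`Ideal.absNorm` and the inertia degree (`Ideal.absNorm_eq_pow_inertiaDeg` over `ℤ` for `v` and
`w`, `Ideal.inertiaDeg_algebra_tower`); finiteness: `Ideal.primesOver` is finite;
`∑_{w' ∣ v} e(w') f(w') = [K' : K] = ℓ` (`Ideal.sum_ramification_inertia`): one place with
`e = 1` has `f = ℓ`; `ℓ` distinct places: all have `e f = 1` and there is no other place. -/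
def PlacesC503 : Prop :=
  ∀ ℓ : ℕ, IsCycExt K K' ℓ → ∀ w : HeightOneSpectrum (𝓞 K'),
    ∃ (v : HeightOneSpectrum (𝓞 K)) (f : ℕ) (P : Finset (HeightOneSpectrum (𝓞 K'))),
      HasResDeg K K' v w f ∧
      (∀ v' : HeightOneSpectrum (𝓞 K), PlaceOver K K' v' w → v' = v) ∧
      (∀ w' : HeightOneSpectrum (𝓞 K'), w' ∈ P ↔ PlaceOver K K' v w') ∧
      ((∃ x : 𝓞 K, x ∈ v.asIdeal ∧ algebraMap (𝓞 K) (𝓞 K') x ∉ w.asIdeal ^ 2) →
        ((∀ w' : HeightOneSpectrum (𝓞 K'), PlaceOver K K' v w' → w' = w) → f = ℓ) ∧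
        ∀ u : ℕ → HeightOneSpectrum (𝓞 K'), (∀ j : ℕ, PlaceOver K K' v (u j)) →
          (∀ j j' : ℕ, j < ℓ → j' < ℓ → u j = u j' → j = j') →
          f = 1 ∧ ∃ j : ℕ, j < ℓ ∧ u j = w)

end TwoFields

/-! ## Appendix: the equation lemmas of the definitions of this file are realised HERE -/

theorem eqns_realised_stepS503 : True := by
  have _h0 := @rtr503.eq_1
  have _h1 := @extU503.eq_1
  have _h2 := @trC503.eq_1
  have _h3 := @shA503.eq_1
  have _h4 := @UnifC503.eq_1
  have _h5 := @TrTestC503.eq_1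
  have _h6 := @TrEKC503.eq_1
  have _h7 := @TrSuppC503.eq_1
  have _h8 := @TrOpC503.eq_1
  have _h9 := @PureShiftC503.eq_1
  have _h10 := @SphShiftC503.eq_1
  have _h11 := @UnitSphC503.eq_1
  have _h12 := @PlacesC503.eq_1
  have _g0 := @rtr503.eq_def
  have _g1 := @extU503.eq_def
  have _g2 := @trC503.eq_def
  have _g3 := @shA503.eq_def
  have _g4 := @UnifC503.eq_def
  have _g5 := @TrTestC503.eq_def
  have _g6 := @TrEKC503.eq_def
  have _g7 := @TrSuppC503.eq_def
  have _g8 := @TrOpC503.eq_def
  have _g9 := @PureShiftC503.eq_def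
  have _g10 := @SphShiftC503.eq_def
  have _g11 := @UnitSphC503.eq_def
  have _g12 := @PlacesC503.eq_def
  trivial

end Fermat.Agent.LT.T7.B981.SS503

end
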