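import Mathlib
import Fermat.Agent.LT.T7.B981.H503.StepSSpec
import Fermat.Agent.LT.T7.H557.DescTriv

/-!
# Row LT, tower T7, node T7.L2.1.H2a.A.2 `B981.StepSC981` (registry row 2815, owner helper503):
# THE CUT -- proved Top

OFF-MAIN.  Complete proofs, nothing assumed.

    stepSC_of503 : UnifC503 K → UnifC503 K' → TrTestC503 K → TrTestC503 K' → TrEKC503 K
        → TrEKC503 K' → TrSuppC503 K → TrSuppC503 K' → TrOpC503 K → TrOpC503 K'
        → PlacesC503 K K' → SphShiftC503 → UnitSphC503 → PureShiftC503 K → PureShiftC503 K'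
        → B981.StepSC981 K K' H893.LocA893
-/

set_option autoImplicit false

open AutomorphicForm IsDedekindDomain NumberField MeasureTheory
open scoped ComplexConjugate

noncomputable section

namespace Fermat.Agent.LT.T7.B981.SS503

open Fermat.Agent.LT.H556 Fermat.Agent.LT.H556.A0 Fermat.Agent.LT.T7
open Fermat.Agent.LT.T7.H305 Fermat.Agent.LT.T7.H893

attribute [local instance] Fermat.Agent.LT.T5.instMeasurableSpaceG

/-! ## 1. The Satake transform of a shift -/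

theorem satT_def503 (q : ℕ) (A : (ℤ × ℤ) →₀ ℂ) (x y : ℂ) :
    satT893 q A x y = A.sum fun lam c => c * T6.satake q lam x y := rfl

theorem satake_def503 (q : ℕ) (lam : ℤ × ℤ) (x y : ℂ) :
    T6.satake q lam x y = (x * y) ^ lam.2 * T6.satPoly q x y (lam.1 - lam.2).toNat := rfl

theorem satake_shift503 (q : ℕ) (t : ℤ) (lam : ℤ × ℤ) (x y : ℂ) (hx : x ≠ 0) (hy : y ≠ 0) :
    T6.satake q (lam.1 + t, lam.2 + t) x y = (x * y) ^ t * T6.satake q lam x y := by
  rw [satake_def503, satake_def503]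
  have hxy : x * y ≠ 0 := mul_ne_zero hx hy
  have h1 : (lam.1 + t, lam.2 + t).1 - (lam.1 + t, lam.2 + t).2 = lam.1 - lam.2 := by
    show lam.1 + t - (lam.2 + t) = lam.1 - lam.2
    ring
  have h2 : (lam.1 + t, lam.2 + t).2 = lam.2 + t := rfl
  rw [h1, h2, zpow_add₀ hxy]
  ring

/-- **The Satake transform of the shifted values** is multiplied by `(x y)^t`. -/
theorem satT_shA503 (q : ℕ) (t : ℤ) (A : (ℤ × ℤ) →₀ ℂ) (x y : ℂ) (hx : x ≠ 0) (hy : y ≠ 0) :
    satT893 q (shA503 t A) x y = (x * y) ^ t * satT893 q A x y := by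
  rw [satT_def503, satT_def503]
  show (A.mapDomain fun lam => (lam.1 + t, lam.2 + t)).sum
      (fun lam c => c * T6.satake q lam x y) = _
  rw [Finsupp.sum_mapDomain_index (fun _ => zero_mul _) (fun _ _ _ => add_mul _ _ _)]
  rw [Finsupp.mul_sum]
  refine Finsupp.sum_congr fun lam _ => ?_
  rw [satake_shift503 q t lam x y hx hy]
  ring

theorem satT_single503 (q : ℕ) (x y : ℂ) :
    satT893 q (Finsupp.single ((0 : ℤ), (0 : ℤ)) (1 : ℂ)) x y = 1 := by
  rw [satT_def503, Finsupp.sum_single_index (zero_mul _), satake_def503]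
  show (1 : ℂ) * ((x * y) ^ (0 : ℤ) * T6.satPoly q x y ((0 : ℤ) - 0).toNat) = 1
  have h : ((0 : ℤ) - 0).toNat = 0 := rfl
  rw [h, zpow_zero]
  show (1 : ℂ) * (1 * 1) = 1
  ring

theorem isBC_def503 (l q : ℕ) (φ f : (ℤ × ℤ) →₀ ℂ) :
    T6.IsBC l q φ f ↔ ∀ x y : ℂ, x ≠ 0 → y ≠ 0 →
      satT893 q f x y = satT893 (q ^ l) φ (x ^ l) (y ^ l) := Iff.rfl

/-- Base change of the unit. -/
theorem isBC_single503 (l q : ℕ) :
    T6.IsBC l q (Finsupp.single ((0 : ℤ), (0 : ℤ)) (1 : ℂ))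
      (Finsupp.single ((0 : ℤ), (0 : ℤ)) (1 : ℂ)) := by
  rw [isBC_def503]
  intro x y _ _
  rw [satT_single503, satT_single503]

/-- Base change of the shifts: `(x^l y^l)^t = (x y)^(t l)`. -/
theorem isBC_shA503 (l q : ℕ) (t : ℤ) (φ f : (ℤ × ℤ) →₀ ℂ) (h : T6.IsBC l q φ f) :
    T6.IsBC l q (shA503 t φ) (shA503 (t * l) f) := by
  rw [isBC_def503] at h ⊢
  intro x y hx hy
  rw [satT_shA503 q _ f x y hx hy, satT_shA503 (q ^ l) t φ _ _ (pow_ne_zero l hx)
    (pow_ne_zero l hy), h x y hx hy]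
  congr 1
  rw [← mul_pow, ← zpow_natCast, ← zpow_mul, mul_comm (l : ℤ) t]

/-! ## 2. The components -/

section Comp

variable {K : Type} [Field K] [NumberField K]

theorem extU_of_mem503 {T : Finset (HeightOneSpectrum (𝓞 K))}
    (f₀ : ∀ v : HeightOneSpectrum (𝓞 K), GL (Fin 2) (v.adicCompletion K) → ℂ)
    {v : HeightOneSpectrum (𝓞 K)} (hv : v ∈ T) : extU503 T f₀ v = f₀ v := by
  classical
  show (if v ∈ T then f₀ v else unitFn893 0) = f₀ v
  rw [if_pos hv]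

theorem extU_of_not_mem503 {T : Finset (HeightOneSpectrum (𝓞 K))}
    (f₀ : ∀ v : HeightOneSpectrum (𝓞 K), GL (Fin 2) (v.adicCompletion K) → ℂ)
    {v : HeightOneSpectrum (𝓞 K)} (hv : v ∉ T) : extU503 T f₀ v = unitFn893 0 := by
  classical
  show (if v ∈ T then f₀ v else unitFn893 0) = unitFn893 0
  rw [if_neg hv]

theorem trC_self503 (v : HeightOneSpectrum (𝓞 K)) (c : GL (Fin 2) (v.adicCompletion K))
    (f₀ : ∀ v : HeightOneSpectrum (𝓞 K), GL (Fin 2) (v.adicCompletion K) → ℂ) :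
    trC503 v c f₀ v = fun x => f₀ v (x * c) := by
  classical
  show Function.update f₀ v (fun x => f₀ v (x * c)) v = _
  rw [Function.update_self]

theorem trC_of_ne503 (v : HeightOneSpectrum (𝓞 K)) (c : GL (Fin 2) (v.adicCompletion K))
    (f₀ : ∀ v : HeightOneSpectrum (𝓞 K), GL (Fin 2) (v.adicCompletion K) → ℂ)
    {v' : HeightOneSpectrum (𝓞 K)} (h : v' ≠ v) : trC503 v c f₀ v' = f₀ v' := by
  classical
  show Function.update f₀ v (fun x => f₀ v (x * c)) v' = _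
  rw [Function.update_of_ne h]

/-- The local component of a scalar uniformiser. -/
theorem finGL_unif503 {v : HeightOneSpectrum (𝓞 K)} {z : G K} (hz : IsScalarUniformizerAt v z) :
    ∃ c₀ : v.adicCompletion K, Valued.v c₀ = WithZero.exp (-1 : ℤ) ∧
      ((finGL305 v z : GL (Fin 2) (v.adicCompletion K)) :
        Matrix (Fin 2) (Fin 2) (v.adicCompletion K)) = Matrix.diagonal (fun _ => c₀) := by
  obtain ⟨-, c₀, hc₀, hz₀⟩ := hz
  exact ⟨c₀, hc₀, hz₀⟩

end Comp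

/-! ## 3. The spherical components outside the level -/

section Sph

variable {K K' : Type} [Field K] [NumberField K] [Field K'] [NumberField K'] [Algebra K K']

open Classical in
/-- The spherical data at `v` of the components extended by the unit. -/
theorem sphData_ext503 (hUn : UnitSphC503) (ℓ : ℕ)
    {T₀ T : Finset (HeightOneSpectrum (𝓞 K))} {T' : Finset (HeightOneSpectrum (𝓞 K'))}
    (hOver : IsOver305 T T')
    {φ₀ : ∀ w : HeightOneSpectrum (𝓞 K'), GL (Fin 2) (w.adicCompletion K') → ℂ}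
    {f₀ : ∀ v : HeightOneSpectrum (𝓞 K), GL (Fin 2) (v.adicCompletion K) → ℂ}
    (hsph : SphOut893 ℓ T₀ T φ₀ f₀) (v : HeightOneSpectrum (𝓞 K)) (hv0 : v ∉ T₀) :
    ∃ (A : HeightOneSpectrum (𝓞 K') → (ℤ × ℤ) →₀ ℂ) (Av : (ℤ × ℤ) →₀ ℂ),
      IsSphFn893 (extU503 T f₀ v) Av ∧
      (∀ w : HeightOneSpectrum (𝓞 K'), PlaceOver K K' v w →
        IsSphFn893 (extU503 T' φ₀ w) (A w)) ∧
      (∀ w : HeightOneSpectrum (𝓞 K'), PlaceOver K K' v w →
        (∀ w' : HeightOneSpectrum (𝓞 K'), PlaceOver K K' v w' → w' = w) →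
        T6.IsBC ℓ (Ideal.absNorm v.asIdeal) (A w) Av) ∧
      ∀ w : ℕ → HeightOneSpectrum (𝓞 K'), (∀ j : ℕ, PlaceOver K K' v (w j)) →
        (∀ j j' : ℕ, j < ℓ → j' < ℓ → w j = w j' → j = j') →
        ∀ x y : ℂ, x ≠ 0 → y ≠ 0 →
          satT893 (Ideal.absNorm v.asIdeal) Av x y
            = ∏ j ∈ Finset.range ℓ, satT893 (Ideal.absNorm v.asIdeal) (A (w j)) x y := by
  by_cases hvT : v ∈ T
  · obtain ⟨A, Av, h1, h2, h3, h4⟩ := hsph v hvT hv0
    refine ⟨A, Av, ?_, ?_, h3, h4⟩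
    · rw [extU_of_mem503 f₀ hvT]
      exact h1
    · intro w hw
      have hwT : w ∈ T' := (hOver w).2 ⟨v, hvT, hw⟩
      rw [extU_of_mem503 φ₀ hwT]
      exact h2 w hw
  · refine ⟨fun _ => Finsupp.single ((0 : ℤ), (0 : ℤ)) (1 : ℂ),
      Finsupp.single ((0 : ℤ), (0 : ℤ)) (1 : ℂ), ?_, ?_, ?_, ?_⟩
    · rw [extU_of_not_mem503 f₀ hvT]
      exact hUn _
    · intro w hw
      have hwT : w ∉ T' := fun h => by
        obtain ⟨v', hv', hvw'⟩ := (hOver w).1 h
        have hvv : v' = v := H557.placeOver_unique_557 hvw' hw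
        exact hvT (hvv ▸ hv')
      rw [extU_of_not_mem503 φ₀ hwT]
      exact hUn _
    · intro w _ _
      exact isBC_single503 ℓ _
    · intro w _ _ x y _ _
      rw [satT_single503]
      exact (Finset.prod_eq_one fun j _ => satT_single503 _ x y).symm

open Classical in
/-- **The spherical components of the shifted pair.** -/
theorem sphOut_new503 (hSh : SphShiftC503) (hUn : UnitSphC503) (ℓ : ℕ)
    {T₀ T : Finset (HeightOneSpectrum (𝓞 K))} {T' : Finset (HeightOneSpectrum (𝓞 K'))}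
    (hOver : IsOver305 T T')
    {φ₀ : ∀ w : HeightOneSpectrum (𝓞 K'), GL (Fin 2) (w.adicCompletion K') → ℂ}
    {f₀ : ∀ v : HeightOneSpectrum (𝓞 K), GL (Fin 2) (v.adicCompletion K) → ℂ}
    (hsph : SphOut893 ℓ T₀ T φ₀ f₀)
    {v : HeightOneSpectrum (𝓞 K)} {w : HeightOneSpectrum (𝓞 K')} {fr : ℕ}
    (hv0 : v ∉ T₀) (hvw : PlaceOver K K' v w)
    (hinert : (∀ w' : HeightOneSpectrum (𝓞 K'), PlaceOver K K' v w' → w' = w) → fr = ℓ)
    (hsplit : ∀ u : ℕ → HeightOneSpectrum (𝓞 K'), (∀ j : ℕ, PlaceOver K K' v (u j)) →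
      (∀ j j' : ℕ, j < ℓ → j' < ℓ → u j = u j' → j = j') →
      fr = 1 ∧ ∃ j : ℕ, j < ℓ ∧ u j = w)
    {cw : GL (Fin 2) (w.adicCompletion K')} {cw₀ : w.adicCompletion K'}
    (hcw₀ : Valued.v cw₀ = WithZero.exp (-1 : ℤ))
    (hcw : (cw : Matrix (Fin 2) (Fin 2) (w.adicCompletion K')) = Matrix.diagonal (fun _ => cw₀))
    {cv : GL (Fin 2) (v.adicCompletion K)} {cv₀ : v.adicCompletion K}
    (hcv₀ : Valued.v cv₀ = WithZero.exp (-1 : ℤ))
    (hcv : (cv : Matrix (Fin 2) (Fin 2) (v.adicCompletion K)) = Matrix.diagonal (fun _ => cv₀))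
    (t : ℤ) :
    SphOut893 ℓ T₀ (T ∪ {v}) (trC503 w (cw ^ t) (extU503 T' φ₀))
      (trC503 v (cv ^ (t * fr)) (extU503 T f₀)) := by
  intro v' hv' hv0'
  by_cases hvv : v' = v
  · subst hvv
    obtain ⟨A, Av, h1, h2, h3, h4⟩ := sphData_ext503 hUn ℓ hOver hsph v' hv0
    refine ⟨fun w' => if w' = w then shA503 (-t) (A w) else A w', shA503 (-(t * fr)) Av,
      ?_, ?_, ?_, ?_⟩
    · rw [trC_self503]
      have h := hSh (v'.adicCompletion K) cv cv₀ hcv₀ hcv (-(t * fr)) (extU503 T f₀ v') Av h1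
      rw [neg_neg] at h
      exact h
    · intro w' hw'
      by_cases hww : w' = w
      · subst hww
        beta_reduce
        rw [if_pos rfl, trC_self503]
        have h := hSh (w'.adicCompletion K') cw cw₀ hcw₀ hcw (-t) (extU503 T' φ₀ w') (A w')
          (h2 w' hw')
        rw [neg_neg] at h
        exact h
      · beta_reduce
        rw [if_neg hww, trC_of_ne503 _ _ _ hww]
        exact h2 w' hw'
    · intro w' hw' huniq
      have hww : w = w' := huniq w hvw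
      subst hww
      beta_reduce
      rw [if_pos rfl]
      have hfr : fr = ℓ := hinert huniq
      have h := isBC_shA503 ℓ (Ideal.absNorm v'.asIdeal) (-t) (A w) Av (h3 w hw' huniq)
      have he : -(t * (fr : ℤ)) = -t * (ℓ : ℤ) := by rw [hfr]; ring
      rw [he]
      exact h
    · intro u hu hinj x y hx hy
      obtain ⟨hfr, j₀, hj₀, hj₀w⟩ := hsplit u hu hinj
      have he : -(t * (fr : ℤ)) = -t := by rw [hfr]; simp
      beta_reduce
      rw [he, satT_shA503 _ _ _ _ _ hx hy, h4 u hu hinj x y hx hy,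
        ← Finset.mul_prod_erase (Finset.range ℓ) _ (Finset.mem_range.2 hj₀),
        ← Finset.mul_prod_erase (Finset.range ℓ)
          (fun j => satT893 (Ideal.absNorm v'.asIdeal)
            (if u j = w then shA503 (-t) (A w) else A (u j)) x y) (Finset.mem_range.2 hj₀)]
      have h5 : satT893 (Ideal.absNorm v'.asIdeal)
          (if u j₀ = w then shA503 (-t) (A w) else A (u j₀)) x y
          = (x * y) ^ (-t) * satT893 (Ideal.absNorm v'.asIdeal) (A (u j₀)) x y := by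
        rw [if_pos hj₀w, satT_shA503 _ _ _ _ _ hx hy, hj₀w]
      have h6 : ∏ j ∈ (Finset.range ℓ).erase j₀, satT893 (Ideal.absNorm v'.asIdeal)
          (if u j = w then shA503 (-t) (A w) else A (u j)) x y
          = ∏ j ∈ (Finset.range ℓ).erase j₀,
              satT893 (Ideal.absNorm v'.asIdeal) (A (u j)) x y := by
        refine Finset.prod_congr rfl fun j hj => ?_
        have hjne : j ≠ j₀ := (Finset.mem_erase.1 hj).1
        have hjl : j < ℓ := Finset.mem_range.1 (Finset.mem_erase.1 hj).2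
        have hne : u j ≠ w := fun h => hjne (hinj j j₀ hjl hj₀ (h.trans hj₀w.symm))
        rw [if_neg hne]
      rw [h5, h6]
      ring
  · have hvT : v' ∈ T := by
      rcases Finset.mem_union.1 hv' with h | h
      · exact h
      · exact absurd (Finset.mem_singleton.1 h) hvv
    obtain ⟨A, Av, h1, h2, h3, h4⟩ := hsph v' hvT hv0'
    refine ⟨A, Av, ?_, ?_, h3, h4⟩
    · rw [trC_of_ne503 _ _ _ hvv, extU_of_mem503 f₀ hvT]
      exact h1
    · intro w' hw'
      have hww : w' ≠ w := fun h => hvv (H557.placeOver_unique_557 (h ▸ hw') hvw)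
      have hwT : w' ∈ T' := (hOver w').2 ⟨v', hvT, hw'⟩
      rw [trC_of_ne503 _ _ _ hww, extU_of_mem503 φ₀ hwT]
      exact h2 w' hw'

end Sph

/-! ## 4. The local shape of the shifted pair -/

section Shape

variable {K K' : Type} [Field K] [NumberField K] [Field K'] [NumberField K'] [Algebra K K']

/-- The archimedean clauses do not depend on the finite components. -/
theorem archOk_congr503 {D : CompData K K'} {μc : @Measure (GL (Fin 2) ℂ) (borel _)}
    {n : HeightOneSpectrum (𝓞 K') → ℕ} {m : HeightOneSpectrum (𝓞 K) → ℕ}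
    {φ₀ φ₀' : ∀ w : HeightOneSpectrum (𝓞 K'), GL (Fin 2) (w.adicCompletion K') → ℂ}
    {Φ : InfinitePlace K' → GL (Fin 2) ℂ → ℂ}
    {f₀ f₀' : ∀ v : HeightOneSpectrum (𝓞 K), GL (Fin 2) (v.adicCompletion K) → ℂ}
    {F : InfinitePlace K → GL (Fin 2) ℂ → ℂ}
    (h : ArchOk893 D μc n m φ₀ Φ f₀ F) : ArchOk893 D μc n m φ₀' Φ f₀' F := by
  obtain ⟨hL, hΦ, hF⟩ := h
  refine ⟨?_, hΦ, hF⟩
  exact
    { inv_up := fun v hv => absurd hv (Finset.notMem_empty v)
      inv_down := fun v hv => absurd hv (Finset.notMem_empty v)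
      arch_up := hL.arch_up
      arch_down := hL.arch_down
      inert := fun v hv => absurd hv (Finset.notMem_empty v)
      split := fun v hv => absurd hv (Finset.notMem_empty v)
      arch := hL.arch }

open Classical in
/-- **The local condition of the shifted components.** -/
theorem locA_new503 (hSh : SphShiftC503) (hUn : UnitSphC503) (B : L2Base K K')
    (𝔫 : Ideal (𝓞 K)) (μc : @Measure (GL (Fin 2) ℂ) (borel _))
    {T₀ T : Finset (HeightOneSpectrum (𝓞 K))} {T' : Finset (HeightOneSpectrum (𝓞 K'))}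
    {n : HeightOneSpectrum (𝓞 K') → ℕ} {m : HeightOneSpectrum (𝓞 K) → ℕ}
    (hT₀ : T₀ ⊆ T) (hOver : IsOver305 T T')
    {φ₀ : ∀ w : HeightOneSpectrum (𝓞 K'), GL (Fin 2) (w.adicCompletion K') → ℂ}
    {Φ : InfinitePlace K' → GL (Fin 2) ℂ → ℂ}
    {f₀ : ∀ v : HeightOneSpectrum (𝓞 K), GL (Fin 2) (v.adicCompletion K) → ℂ}
    {F : InfinitePlace K → GL (Fin 2) ℂ → ℂ}
    (hloc : LocA893 B 𝔫 μc T₀ n m T φ₀ Φ f₀ F)
    {v : HeightOneSpectrum (𝓞 K)} {w : HeightOneSpectrum (𝓞 K')} {fr : ℕ}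
    (hv0 : v ∉ T₀) (hvw : PlaceOver K K' v w)
    (hinert : (∀ w' : HeightOneSpectrum (𝓞 K'), PlaceOver K K' v w' → w' = w) → fr = B.l)
    (hsplit : ∀ u : ℕ → HeightOneSpectrum (𝓞 K'), (∀ j : ℕ, PlaceOver K K' v (u j)) →
      (∀ j j' : ℕ, j < B.l → j' < B.l → u j = u j' → j = j') →
      fr = 1 ∧ ∃ j : ℕ, j < B.l ∧ u j = w)
    {cw : GL (Fin 2) (w.adicCompletion K')} {cw₀ : w.adicCompletion K'}
    (hcw₀ : Valued.v cw₀ = WithZero.exp (-1 : ℤ))
    (hcw : (cw : Matrix (Fin 2) (Fin 2) (w.adicCompletion K')) = Matrix.diagonal (fun _ => cw₀))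
    {cv : GL (Fin 2) (v.adicCompletion K)} {cv₀ : v.adicCompletion K}
    (hcv₀ : Valued.v cv₀ = WithZero.exp (-1 : ℤ))
    (hcv : (cv : Matrix (Fin 2) (Fin 2) (v.adicCompletion K)) = Matrix.diagonal (fun _ => cv₀))
    (t : ℤ) :
    LocA893 B 𝔫 μc T₀ n m (T ∪ {v}) (trC503 w (cw ^ t) (extU503 T' φ₀)) Φ
      (trC503 v (cv ^ (t * fr)) (extU503 T f₀)) F := by
  obtain ⟨h1, h2, h3, h4⟩ := hloc
  refine ⟨?_, ?_, ?_, ?_⟩
  · intro v' hv'
    have hne : v' ≠ v := fun h => hv0 (h ▸ hv')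
    rw [trC_of_ne503 _ _ _ hne, extU_of_mem503 f₀ (hT₀ hv')]
    exact h1 v' hv'
  · intro v' hv' w' hw'
    have hne : w' ≠ w := fun h =>
      hv0 ((H557.placeOver_unique_557 (h ▸ hw') hvw) ▸ hv')
    have hwT : w' ∈ T' := (hOver w').2 ⟨v', hT₀ hv', hw'⟩
    rw [trC_of_ne503 _ _ _ hne, extU_of_mem503 φ₀ hwT]
    exact h2 v' hv' w' hw'
  · exact sphOut_new503 hSh hUn B.l hOver h3 hv0 hvw hinert hsplit hcw₀ hcw hcv₀ hcv t
  · exact archOk_congr503 h4

end Shape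

/-! ## 5. The average of pure tensors of the shifted pair -/

section Avg

variable {K K' : Type} [Field K] [NumberField K] [Field K'] [NumberField K'] [Algebra K K']

theorem rtr_apply503 {F : Type} [Field F] [NumberField F] (z : G F) (φ : G F → ℂ) (g : G F) :
    rtr503 z φ g = φ (g * z) := rfl

open Classical in
/-- **The shifted pair is an average of pure tensors with the local condition `LocA893`.** -/
theorem shape_new503 (hT : TrTestC503 K) (hT' : TrTestC503 K') (hSh : SphShiftC503)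
    (hUn : UnitSphC503) (hPu : PureShiftC503 K) (hPu' : PureShiftC503 K')
    (B : L2Base K K') (𝔫 : Ideal (𝓞 K)) (μc : @Measure (GL (Fin 2) ℂ) (borel _))
    {T₀ : Finset (HeightOneSpectrum (𝓞 K))}
    {n : HeightOneSpectrum (𝓞 K') → ℕ} {m : HeightOneSpectrum (𝓞 K) → ℕ}
    {φ : G K' → ℂ} {f : G K → ℂ}
    (hshape : IsAvgPure (upI (K' := K') 𝔫) 𝔫 T₀ (LocA893 B 𝔫 μc T₀ n m) 1 φ f)
    {v : HeightOneSpectrum (𝓞 K)} {w : HeightOneSpectrum (𝓞 K')} {fr : ℕ}
    (P : Finset (HeightOneSpectrum (𝓞 K')))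
    (hP : ∀ w' : HeightOneSpectrum (𝓞 K'), w' ∈ P ↔ PlaceOver K K' v w')
    (hv0 : v ∉ T₀) (hvw : PlaceOver K K' v w)
    (hinert : (∀ w' : HeightOneSpectrum (𝓞 K'), PlaceOver K K' v w' → w' = w) → fr = B.l)
    (hsplit : ∀ u : ℕ → HeightOneSpectrum (𝓞 K'), (∀ j : ℕ, PlaceOver K K' v (u j)) →
      (∀ j j' : ℕ, j < B.l → j' < B.l → u j = u j' → j = j') →
      fr = 1 ∧ ∃ j : ℕ, j < B.l ∧ u j = w)
    {z' : G K'} (hz' : IsScalarUniformizerAt w z') {z : G K} (hz : IsScalarUniformizerAt v z)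
    (t : ℤ) :
    IsAvgPure (upI (K' := K') 𝔫) 𝔫 T₀ (LocA893 B 𝔫 μc T₀ n m) 1
      (rtr503 (z' ^ t) φ) (rtr503 (z ^ (t * fr)) f) := by
  obtain ⟨Ω, i1, i2, i3, i4, i5, i6, ν, i7, T, T', φ₀, Φc, f₀, Fc, hA, hB1, hB2, hC1, hC2,
    ⟨C', hC', hD1⟩, ⟨C, hC, hD2⟩, hE1, hE2⟩ := hshape
  obtain ⟨cw₀, hcw₀, hcw⟩ := finGL_unif503 hz'
  obtain ⟨cv₀, hcv₀, hcv⟩ := finGL_unif503 hz
  have hwP : w ∈ P := (hP w).2 hvw
  have hvS : v ∈ ({v} : Finset (HeightOneSpectrum (𝓞 K))) := Finset.mem_singleton_self v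
  -- the key identities
  have hup : ∀ (a : Ω) (h : G K'),
      pure305 (T' a ∪ P) (trC503 w (finGL305 w (z' ^ t)) (extU503 (T' a) (φ₀ a))) (Φc a) h
        = pure305 (T' a) (φ₀ a) (Φc a) (h * z' ^ t) := fun a h =>
    hPu' (T' a) P (φ₀ a) (Φc a) w hwP z' hz' t h
  have hdn : ∀ (a : Ω) (h : G K),
      pure305 (T a ∪ {v}) (trC503 v (finGL305 v (z ^ (t * fr))) (extU503 (T a) (f₀ a)))
          (Fc a) h
        = pure305 (T a) (f₀ a) (Fc a) (h * z ^ (t * fr)) := fun a h =>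
    hPu (T a) {v} (f₀ a) (Fc a) v hvS z hz (t * fr) h
  refine ⟨Ω, i1, i2, i3, i4, i5, i6, ν, i7, fun a => T a ∪ {v}, fun a => T' a ∪ P,
    fun a => trC503 w (finGL305 w (z' ^ t)) (extU503 (T' a) (φ₀ a)), Φc,
    fun a => trC503 v (finGL305 v (z ^ (t * fr))) (extU503 (T a) (f₀ a)), Fc,
    ?_, ?_, ?_, ?_, ?_, ?_, ?_, ?_, ?_⟩
  · -- the local conditions
    intro a
    obtain ⟨hT₀, hOver, hloc⟩ := hA a
    refine ⟨fun x hx => Finset.mem_union_left _ (hT₀ hx), ?_, ?_⟩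
    · intro w'
      constructor
      · intro hw'
        rcases Finset.mem_union.1 hw' with h | h
        · obtain ⟨v', hv', hvw'⟩ := (hOver w').1 h
          exact ⟨v', Finset.mem_union_left _ hv', hvw'⟩
        · exact ⟨v, Finset.mem_union_right _ hvS, (hP w').1 h⟩
      · rintro ⟨v', hv', hvw'⟩
        rcases Finset.mem_union.1 hv' with h | h
        · exact Finset.mem_union_left _ ((hOver w').2 ⟨v', h, hvw'⟩)
        · have hvv : v' = v := Finset.mem_singleton.1 h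
          exact Finset.mem_union_right _ ((hP w').2 (hvv ▸ hvw'))
    · have h1 : finGL305 w (z' ^ t) = finGL305 w z' ^ t := map_zpow _ _ _
      have h2 : finGL305 v (z ^ (t * fr)) = finGL305 v z ^ (t * fr) := map_zpow _ _ _
      rw [h1, h2]
      exact locA_new503 hSh hUn B 𝔫 μc hT₀ hOver hloc hv0 hvw hinert hsplit hcw₀ hcw hcv₀ hcv t
  · intro a
    have h : pure305 (T' a ∪ P) (trC503 w (finGL305 w (z' ^ t)) (extU503 (T' a) (φ₀ a))) (Φc a)
        = rtr503 (z' ^ t) (pure305 (T' a) (φ₀ a) (Φc a)) := funext fun h => hup a h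
    rw [h]
    exact hT' _ w z' hz' t _ (hB1 a)
  · intro a
    have h : (fun h => (1 : ℂ) * pure305 (T a ∪ {v})
          (trC503 v (finGL305 v (z ^ (t * fr))) (extU503 (T a) (f₀ a))) (Fc a) h)
        = rtr503 (z ^ (t * fr)) (fun h => (1 : ℂ) * pure305 (T a) (f₀ a) (Fc a) h) :=
      funext fun h => by rw [rtr_apply503, hdn a h]
    rw [h]
    exact hT _ v z hz (t * fr) _ (hB2 a)
  · have h : (fun p : Ω × G K' => pure305 (T' p.1 ∪ P)
          (trC503 w (finGL305 w (z' ^ t)) (extU503 (T' p.1) (φ₀ p.1))) (Φc p.1) p.2)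
        = (fun p : Ω × G K' => pure305 (T' p.1) (φ₀ p.1) (Φc p.1) p.2)
            ∘ fun p : Ω × G K' => (p.1, p.2 * z' ^ t) := funext fun p => hup p.1 p.2
    rw [h]
    exact hC1.comp (continuous_fst.prodMk (continuous_snd.mul continuous_const))
  · have h : (fun p : Ω × G K => (1 : ℂ) * pure305 (T p.1 ∪ {v})
          (trC503 v (finGL305 v (z ^ (t * fr))) (extU503 (T p.1) (f₀ p.1))) (Fc p.1) p.2)
        = (fun p : Ω × G K => (1 : ℂ) * pure305 (T p.1) (f₀ p.1) (Fc p.1) p.2)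
            ∘ fun p : Ω × G K => (p.1, p.2 * z ^ (t * fr)) :=
      funext fun p => by
        show (1 : ℂ) * _ = (1 : ℂ) * _
        rw [hdn p.1 p.2]
    rw [h]
    exact hC2.comp (continuous_fst.prodMk (continuous_snd.mul continuous_const))
  · refine ⟨(fun g : G K' => g * (z' ^ t)⁻¹) '' C',
      hC'.image (continuous_id.mul continuous_const), ?_⟩
    intro a h hne
    rw [hup a h] at hne
    exact ⟨h * z' ^ t, hD1 a _ hne, by simp⟩
  · refine ⟨(fun g : G K => g * (z ^ (t * fr))⁻¹) '' C,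
      hC.image (continuous_id.mul continuous_const), ?_⟩
    intro a h hne
    rw [hdn a h] at hne
    exact ⟨h * z ^ (t * fr), hD2 a _ hne, by simp⟩
  · intro h
    rw [rtr_apply503, hE1 (h * z' ^ t)]
    exact integral_congr_ae (Filter.Eventually.of_forall fun a => (hup a h).symm)
  · intro h
    rw [rtr_apply503, hE2 (h * z ^ (t * fr))]
    refine integral_congr_ae (Filter.Eventually.of_forall fun a => ?_)
    show (1 : ℂ) * _ = (1 : ℂ) * _
    rw [hdn a h]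

end Avg

/-! ## 6. The step -/

section Top

variable {K K' : Type} [Field K] [NumberField K] [Field K'] [NumberField K'] [Algebra K K']

/-- A place outside `S'` does not divide the base level. -/
theorem not_dvd_base503 {B : L2Base K K'} {𝔫 : Ideal (𝓞 K)} (hlev : Q797.IsLevel797 B 𝔫)
    {w : HeightOneSpectrum (𝓞 K')} (hwS : w ∉ B.S') : ¬ w.asIdeal ∣ B.𝔑₀ := by
  intro h
  apply hwS
  rw [hlev.mem_S'_g]
  exact dvd_trans h (Ideal.dvd_iff_le.2 hlev.level_g)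

/-- The place under a place outside `S'` does not divide the level. -/
theorem not_dvd_level503 {B : L2Base K K'} {𝔫 : Ideal (𝓞 K)} (hlev : Q797.IsLevel797 B 𝔫)
    {v : HeightOneSpectrum (𝓞 K)} {w : HeightOneSpectrum (𝓞 K')} (hvw : PlaceOver K K' v w)
    (hwS : w ∉ B.S') : ¬ v.asIdeal ∣ 𝔫 := by
  intro h
  apply hwS
  rw [hlev.mem_S'_g, Ideal.dvd_iff_le]
  show Ideal.map (algebraMap (𝓞 K) (𝓞 K')) 𝔫 ≤ w.asIdeal
  rw [Ideal.map_le_iff_le_comap, ← (H557.placeOver_iff_557 v w).1 hvw]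
  exact Ideal.dvd_iff_le.1 h

/-- **The shifted pairs are good**, for every integer shift. -/
theorem core503 (hU : UnifC503 K) (hU' : UnifC503 K') (hT : TrTestC503 K)
    (hT' : TrTestC503 K') (hE : TrEKC503 K) (hE' : TrEKC503 K') (hS : TrSuppC503 K)
    (hS' : TrSuppC503 K') (hPl : PlacesC503 K K') (hSh : SphShiftC503) (hUn : UnitSphC503)
    (hPu : PureShiftC503 K) (hPu' : PureShiftC503 K')
    {ℓ : ℕ} (hcyc : IsCycExt K K' ℓ) {Φ : HeckeEigensystem K' ℂ} {B : L2Base K K'}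
    (hB : IsL2Base ℓ Φ B) (hRam : B.RamIn) {𝔫 : Ideal (𝓞 K)} (hlev : Q797.IsLevel797 B 𝔫)
    (μc : @Measure (GL (Fin 2) ℂ) (borel _)) {T₀ : Finset (HeightOneSpectrum (𝓞 K))}
    {n n₀ : HeightOneSpectrum (𝓞 K') → ℕ} {m : HeightOneSpectrum (𝓞 K) → ℕ}
    (hexp : Q797.IsExp797 B 𝔫 T₀ n n₀ m) {w : HeightOneSpectrum (𝓞 K')} (hwS : w ∉ B.S')
    {φ : G K' → ℂ} {f : G K → ℂ} (hgood : IsGoodA981 LocA893 ℓ B 𝔫 μc T₀ n m φ f) :
    ∃ (v : HeightOneSpectrum (𝓞 K)) (fr : ℕ) (z' : G K') (z : G K),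
      HasResDeg K K' v w fr ∧ IsScalarUniformizerAt w z' ∧ IsScalarUniformizerAt v z ∧
      ¬ v.asIdeal ∣ 𝔫 ∧
      ∀ t : ℤ, IsGoodA981 LocA893 ℓ B 𝔫 μc T₀ n m (rtr503 (z' ^ t) φ)
        (rtr503 (z ^ (t * fr)) f) := by
  obtain ⟨v, fr, P, hres, -, hP, hunr⟩ := hPl ℓ hcyc w
  have hvw : PlaceOver K K' v w := hres.1
  obtain ⟨hinert, hsplit⟩ := hunr (hRam v w hvw hwS)
  obtain ⟨z', hz'⟩ := hU' w
  obtain ⟨z, hz⟩ := hU v
  have hvn : ¬ v.asIdeal ∣ 𝔫 := not_dvd_level503 hlev hvw hwS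
  have hv0 : v ∉ T₀ := fun h => hvn ((hexp.mem_T₀ v).1 h)
  have hdeg : B.l = ℓ := hB.deg
  have hinert' : (∀ w' : HeightOneSpectrum (𝓞 K'), PlaceOver K K' v w' → w' = w) → fr = B.l :=
    fun h => (hinert h).trans hdeg.symm
  have hsplit' : ∀ u : ℕ → HeightOneSpectrum (𝓞 K'), (∀ j : ℕ, PlaceOver K K' v (u j)) →
      (∀ j j' : ℕ, j < B.l → j' < B.l → u j = u j' → j = j') →
      fr = 1 ∧ ∃ j : ℕ, j < B.l ∧ u j = w := by
    rw [hdeg]
    exact hsplit
  have ho : ∀ j : ℕ, j < ℓ → B.o j ≠ w := fun j _ h => hwS (h ▸ hB.orbit_level j)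
  have hu : ∀ j : ℕ, j < 1 → (fun _ : ℕ => B.u) j ≠ v := by
    intro j _ h
    have h' : B.u = v := h
    obtain ⟨j', -, hj'⟩ := hB.orbit_all w (h' ▸ hvw)
    exact hwS (hj' ▸ hB.orbit_level j')
  refine ⟨v, fr, z', z, hres, hz', hz, hvn, fun t => ?_⟩
  exact
    { up_test := hT' _ w z' hz' t φ hgood.up_test
      up_ek := ⟨(hE' _ _ hB.frame'.frame w z' hz' t φ).1 hgood.up_ek.1,
        (hE' _ _ hB.frame'.frame w z' hz' t φ).2 hgood.up_ek.2⟩
      dn_test := hT _ v z hz (t * fr) f hgood.dn_test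
      dn_ek := ⟨(hE _ _ hB.frame.frame v z hz (t * fr) f).1 hgood.dn_ek.1,
        (hE _ _ hB.frame.frame v z hz (t * fr) f).2 hgood.dn_ek.2⟩
      up_supp := hS' ℓ B.o w z' hz' ho t φ hgood.up_supp
      dn_supp := hS 1 (fun _ => B.u) v z hz hu (t * fr) f hgood.dn_supp
      shape := shape_new503 hT hT' hSh hUn hPu hPu' B 𝔫 μc hgood.shape P hP hv0 hvw hinert'
        hsplit' hz' hz t }

variable (K K')

/-- **THE NODE `B981.StepSC981` FROM THE LEAVES** (the shape of record `H893.LocA893`). -/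
theorem stepSC_of503 (hU : UnifC503 K) (hU' : UnifC503 K') (hT : TrTestC503 K)
    (hT' : TrTestC503 K') (hE : TrEKC503 K) (hE' : TrEKC503 K') (hS : TrSuppC503 K)
    (hS' : TrSuppC503 K') (hO : TrOpC503 K) (hO' : TrOpC503 K') (hPl : PlacesC503 K K')
    (hSh : SphShiftC503) (hUn : UnitSphC503) (hPu : PureShiftC503 K)
    (hPu' : PureShiftC503 K') : B981.StepSC981 K K' H893.LocA893 := by
  intro ℓ hcyc _ _ Φ B hB hRam 𝔫 hlev μc _ T₀ n n₀ m hexp x hx hxout φ f hgood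
  obtain ⟨w, hxw⟩ := hx
  have hwS : w ∉ B.S' := by
    rcases hxw with h | h
    · rw [h] at hxout
      exact hxout
    · rw [h] at hxout
      exact hxout
  obtain ⟨v, fr, z', z, hres, hz', hz, hvn, hgood'⟩ :=
    core503 hU hU' hT hT' hE hE' hS hS' hPl hSh hUn hPu hPu' hcyc hB hRam hlev μc hexp hwS hgood
  have hwn : ¬ w.asIdeal ∣ B.𝔑₀ := not_dvd_base503 hlev hwS
  rcases hxw with h | h
  · -- `x = S_w`
    refine ⟨(rtr503 (z' ^ (-1 : ℤ)) φ, rtr503 (z ^ ((-1 : ℤ) * fr)) f), hgood' (-1), ?_⟩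
    refine ⟨?_, ?_⟩
    · intro χ C hχ y
      have h1 := (hO' _ _ hB.frame'.frame χ w (C.a w) (C.b w) (hχ.hecke w hwn) z' hz' 1 φ y).1
      rw [h, Gen.ev_S797]
      rw [Nat.cast_one, pow_one] at h1
      exact h1
    · intro χ c C hχ hBC y
      have hb : C.b w = c.b v ^ fr := (hBC.1 w hwS v fr hres).2
      have h1 := (hO _ _ hB.frame.frame χ v (c.a v) (c.b v) (hχ.hecke v hvn) z hz fr f y).1
      have he : ((-1 : ℤ) * (fr : ℤ)) = -((fr : ℕ) : ℤ) := by ring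
      rw [h, Gen.ev_S797, hb]
      show T5.Rconv B.R.μ (rtr503 (z ^ ((-1 : ℤ) * fr)) f) χ y = _
      rw [he]
      exact h1
  · -- `x = S_w⁻¹`
    refine ⟨(rtr503 (z' ^ (1 : ℤ)) φ, rtr503 (z ^ ((1 : ℤ) * fr)) f), hgood' 1, ?_⟩
    refine ⟨?_, ?_⟩
    · intro χ C hχ y
      have h1 := (hO' _ _ hB.frame'.frame χ w (C.a w) (C.b w) (hχ.hecke w hwn) z' hz' 1 φ y).2
      rw [h, Gen.ev_Sinv797]
      rw [Nat.cast_one, pow_one] at h1
      exact h1
    · intro χ c C hχ hBC y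
      have hb : C.b w = c.b v ^ fr := (hBC.1 w hwS v fr hres).2
      have h1 := (hO _ _ hB.frame.frame χ v (c.a v) (c.b v) (hχ.hecke v hvn) z hz fr f y).2
      have he : ((1 : ℤ) * (fr : ℤ)) = ((fr : ℕ) : ℤ) := by ring
      rw [h, Gen.ev_Sinv797, hb]
      show T5.Rconv B.R.μ (rtr503 (z ^ ((1 : ℤ) * fr)) f) χ y = _
      rw [he]
      exact h1

end Top

end Fermat.Agent.LT.T7.B981.SS503

end
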