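import Mathlib
import Fermat.Agent.LT.T7.B981.H503.StepSTop
import Fermat.Agent.LT.T7.B981.H704.Unif
import Fermat.Agent.LT.T7.B981.H519.TrTest
import Fermat.Agent.LT.T7.H290.TrEK
import Fermat.Agent.LT.T7.H290.TrOp
import Fermat.Agent.LT.T7.H387.TrSupp
import Fermat.Agent.LT.T7.H963.Places
import Fermat.Agent.LT.T7.B981.H619.SphShift
import Fermat.Agent.LT.T7.H802.PureShift

/-!
# Row LT, tower T7, node T7.L2.1.H2a.A.2 `B981.StepSC981` (registry row 2815, owner helper503):
# THE NODE, UNCONDITIONAL

OFF-MAIN.  Complete proof, nothing assumed.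

    stepSC503 (K K') : B981.StepSC981 K K' H893.LocA893

= the proved top `SS503.stepSC_of503` (`StepSTop.lean`) applied to the nine delivered leaves
(`StepSSpec.lean`, registry rows 2869-2877):

* `UnifC503`      `B981.H704.unifC704`       (helper704, plug of `H129.exists_scalarUniformizer129`)
* `TrTestC503`    `B981.H519.trTestC519`     (helper519)
* `TrEKC503`      `T7.H290S.trEKC290`        (helper290)
* `TrSuppC503`    `T7.H387S.trSuppC387`      (helper387)
* `TrOpC503`      `T7.H290S.trOpC290`        (helper290)
* `PlacesC503`    `T7.H963.placesC963`       (helper963)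
* `SphShiftC503`  `B981.H619.sphShiftC619`   (helper619)
* `UnitSphC503`   `B981.H619.unitSphC619`    (helper619)
* `PureShiftC503` `T7.H802.pureShiftC802`    (helper802)
-/

set_option autoImplicit false

open AutomorphicForm IsDedekindDomain NumberField MeasureTheory

noncomputable section

namespace Fermat.Agent.LT.T7.B981.SS503

open Fermat.Agent.LT.T7

/-- **NODE A.2 = STEP-S**, unconditional: the step of the generators `S_w`, `S_w⁻¹`
(`w` a finite place of `K'` outside `S'`), of record for `LA = H893.LocA893`. -/
theorem stepSC503 (K K' : Type) [Field K] [NumberField K] [Field K'] [NumberField K']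
    [Algebra K K'] : B981.StepSC981 K K' H893.LocA893 :=
  stepSC_of503 K K' (B981.H704.unifC704 K) (B981.H704.unifC704 K')
    (B981.H519.trTestC519 K) (B981.H519.trTestC519 K')
    (H290S.trEKC290 K) (H290S.trEKC290 K')
    (H387S.trSuppC387 K) (H387S.trSuppC387 K')
    (H290S.trOpC290 K) (H290S.trOpC290 K')
    (H963.placesC963 K K') B981.H619.sphShiftC619 B981.H619.unitSphC619
    (H802.pureShiftC802 K) (H802.pureShiftC802 K')

end Fermat.Agent.LT.T7.B981.SS503

end
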